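import Mathlib
import Fermat.Prelude.Def_FLTPrelim_Modularity
import Fermat.Prelude.Def_ModularForm_HeckeOperatorForms
import Fermat.Prelude.Thm_ModularFormClass_qCoeff_heckeT
import Fermat.Prelude.Thm_ModularFormClass_qCoeff_heckeU
import Fermat.Prelude.Thm_CongruenceSubgroup_one_mem_strictPeriods_Gamma0

set_option autoImplicit false

open CongruenceSubgroup ModularFormClass UpperHalfPlane

namespace Fermat.Agent.S49.H90

variable {N : ℕ}

theorem qCoeff_smul {k : ℤ} (c : ℂ) (g : CuspForm (Gamma0 N) k) (n : ℕ) :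
    qCoeff ((c • g : CuspForm (Gamma0 N) k) : ℍ → ℂ) n = c * qCoeff g n := by
  have h := ModularForm.qExpansion_smul (h := 1) one_pos (one_mem_strictPeriods_Gamma0 N) c g
  have hcoe : ((c • g : CuspForm (Gamma0 N) k) : ℍ → ℂ) = c • (g : ℍ → ℂ) := rfl
  rw [qCoeff, hcoe, h]
  simp [qCoeff]

theorem qCoeff_zero_eq {k : ℤ} (g : CuspForm (Gamma0 N) k) : qCoeff g 0 = 0 := by
  rw [qCoeff]
  exact CuspFormClass.qExpansion_coeff_zero g one_pos (one_mem_strictPeriods_Gamma0 N)

theorem qCoeff_heckeTLin {k : ℤ} {p : ℕ} (hp : p.Prime) (hpN : ¬ p ∣ N)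
    (g : CuspForm (Gamma0 N) k) (n : ℕ) :
    qCoeff (CuspForm.heckeTLin k hp hpN g) n =
      ModularForm.coeffHeckeT k p (qCoeff g) n := by
  rw [CuspForm.coe_heckeTLin_apply]
  exact ModularFormClass.qCoeff_heckeT g (one_mem_strictPeriods_Gamma0 N) hp.ne_zero n

theorem qCoeff_heckeULin {k : ℤ} [NeZero N] {p : ℕ} (hp : p ≠ 0) (hpN : p ∣ N)
    (g : CuspForm (Gamma0 N) k) (n : ℕ) :
    qCoeff (CuspForm.heckeULin k hpN g) n =
      ModularForm.coeffHeckeU p (qCoeff g) n := by
  rw [CuspForm.coe_heckeULin_apply]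
  exact ModularFormClass.qCoeff_heckeU g (one_mem_strictPeriods_Gamma0 N) hp n


section Seq


/-- Abstract Hecke relations on a coefficient sequence, weight 2, level `N`. -/
structure SeqEigen (N : ℕ) (a lam : ℕ → ℂ) : Prop where
  relT : ∀ p : ℕ, p.Prime → ¬ p ∣ N → ∀ n : ℕ,
    a (n * p) + (if p ∣ n then (p : ℂ) * a (n / p) else 0) = lam p * a n
  relU : ∀ p : ℕ, p.Prime → p ∣ N → ∀ n : ℕ, a (n * p) = lam p * a n

variable {N : ℕ} {a lam : ℕ → ℂ}

theorem SeqEigen.lam_eq (h : SeqEigen N a lam) (h1 : a 1 = 1) {p : ℕ} (hp : p.Prime) :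
    lam p = a p := by
  by_cases hpN : p ∣ N
  · have := h.relU p hp hpN 1
    rw [one_mul, h1, mul_one] at this
    exact this.symm
  · have := h.relT p hp hpN 1
    rw [one_mul, h1, mul_one, if_neg (by simpa using hp.ne_one), add_zero] at this
    exact this.symm

theorem SeqEigen.pow_not_dvd (h : SeqEigen N a lam) (h1 : a 1 = 1) {p : ℕ} (hp : p.Prime)
    (hpN : ¬ p ∣ N) (r : ℕ) :
    a (p ^ (r + 2)) = a p * a (p ^ (r + 1)) - p * a (p ^ r) := by
  have := h.relT p hp hpN (p ^ (r + 1))
  have hdiv : p ^ (r + 1) / p = p ^ r := by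
    rw [pow_succ]
    exact Nat.mul_div_cancel _ hp.pos
  rw [if_pos (dvd_pow_self p (Nat.succ_ne_zero r)), h.lam_eq h1 hp, ← pow_succ, hdiv] at this
  rw [← this]
  ring

theorem SeqEigen.pow_dvd (h : SeqEigen N a lam) (h1 : a 1 = 1) {p : ℕ} (hp : p.Prime)
    (hpN : p ∣ N) (r : ℕ) :
    a (p ^ (r + 2)) = a p * a (p ^ (r + 1)) := by
  have := h.relU p hp hpN (p ^ (r + 1))
  rw [h.lam_eq h1 hp, ← pow_succ] at this
  exact this

theorem SeqEigen.mul_prime_pow (h : SeqEigen N a lam) (h1 : a 1 = 1) {p : ℕ} (hp : p.Prime)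
    {n : ℕ} (hpn : ¬ p ∣ n) : ∀ r : ℕ, a (n * p ^ r) = a n * a (p ^ r) := by
  have step1 : a (n * p) = a n * a p := by
    by_cases hpN : p ∣ N
    · rw [h.relU p hp hpN n, h.lam_eq h1 hp, mul_comm]
    · have := h.relT p hp hpN n
      rw [if_neg hpn, add_zero, h.lam_eq h1 hp] at this
      rw [this, mul_comm]
  intro r
  induction r using Nat.twoStepInduction with
  | zero => simp [h1]
  | one => simpa using step1
  | more r ih0 ih1 =>
    by_cases hpN : p ∣ N
    · have := h.relU p hp hpN (n * p ^ (r + 1))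
      rw [h.lam_eq h1 hp, mul_assoc, ← pow_succ] at this
      rw [this, ih1, h.pow_dvd h1 hp hpN r]
      ring
    · have := h.relT p hp hpN (n * p ^ (r + 1))
      have hdvd : p ∣ n * p ^ (r + 1) := Dvd.dvd.mul_left (dvd_pow_self p (Nat.succ_ne_zero r)) n
      have hdiv : n * p ^ (r + 1) / p = n * p ^ r := by
        rw [pow_succ, ← mul_assoc]
        exact Nat.mul_div_cancel _ hp.pos
      rw [if_pos hdvd, h.lam_eq h1 hp, mul_assoc, ← pow_succ, hdiv, ih0, ih1] at this
      rw [h.pow_not_dvd h1 hp hpN r]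
      linear_combination this

theorem SeqEigen.mul_of_coprime (h : SeqEigen N a lam) (h1 : a 1 = 1) :
    ∀ m n : ℕ, m.Coprime n → a (m * n) = a m * a n := by
  intro m
  induction m using Nat.strong_induction_on with
  | _ m ih =>
    intro n hmn
    rcases Nat.eq_zero_or_pos m with rfl | hm0
    · have hn1 : n = 1 := by simpa using hmn
      subst hn1
      simp [h1]
    rcases Nat.lt_or_ge 1 m with h1m | h1m
    · obtain ⟨p, hp, hpm⟩ := Nat.exists_prime_and_dvd (show m ≠ 1 by omega)
      obtain ⟨r, m', hpm', rfl⟩ := Nat.exists_eq_pow_mul_and_not_dvd hm0.ne' p hp.ne_one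
      have hr : r ≠ 0 := by
        rintro rfl
        simp at hpm
        exact hpm' hpm
      have hm'pos : 0 < m' := by
        rcases Nat.eq_zero_or_pos m' with rfl | h
        · simp at hm0
        · exact h
      have hm'lt : m' < p ^ r * m' := by
        have : 2 ≤ p ^ r := by
          calc 2 ≤ p := hp.two_le
            _ = p ^ 1 := (pow_one p).symm
            _ ≤ p ^ r := Nat.pow_le_pow_right hp.pos (Nat.one_le_iff_ne_zero.mpr hr)
        nlinarith
      have hcop' : m'.Coprime n := Nat.Coprime.coprime_mul_left hmn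
      have hpn : ¬ p ∣ n := by
        intro hpn
        have : p ∣ Nat.gcd (p ^ r * m') n :=
          Nat.dvd_gcd (Dvd.dvd.mul_right (dvd_pow_self p hr) m') hpn
        rw [hmn] at this
        exact hp.one_lt.ne' (Nat.dvd_one.mp this)
      have hpm'n : ¬ p ∣ m' * n := by
        intro hd
        rcases (Nat.Prime.dvd_mul hp).mp hd with hd | hd
        · exact hpm' hd
        · exact hpn hd
      calc a (p ^ r * m' * n) = a (m' * n * p ^ r) := by ring_nf
        _ = a (m' * n) * a (p ^ r) := h.mul_prime_pow h1 hp hpm'n r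
        _ = a m' * a n * a (p ^ r) := by rw [ih m' hm'lt n hcop']
        _ = a (m' * p ^ r) * a n := by rw [h.mul_prime_pow h1 hp hpm' r]; ring
        _ = a (p ^ r * m') * a n := by rw [mul_comm m']
    · have : m = 1 := by omega
      subst this
      simp [h1]



theorem SeqEigen.eq_zero_of_one (h : SeqEigen N a lam) (h1 : a 1 = 0) :
    ∀ n : ℕ, 1 ≤ n → a n = 0 := by
  intro n
  induction n using Nat.strong_induction_on with
  | _ n ih =>
    intro hn
    rcases Nat.lt_or_ge 1 n with h1n | h1n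
    · obtain ⟨p, hp, hpn⟩ := Nat.exists_prime_and_dvd (show n ≠ 1 by omega)
      obtain ⟨m, rfl⟩ := hpn
      have hm : 1 ≤ m := by
        rcases Nat.eq_zero_or_pos m with rfl | hm
        · simp at hn
        · exact hm
      have hmlt : m < p * m := by
        have := hp.two_le
        nlinarith
      have ham : a m = 0 := ih m hmlt hm
      rw [mul_comm]
      by_cases hpN : p ∣ N
      · rw [h.relU p hp hpN m, ham, mul_zero]
      · have hrel := h.relT p hp hpN m
        rw [ham, mul_zero] at hrel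
        by_cases hpm : p ∣ m
        · rw [if_pos hpm] at hrel
          have hdiv : a (m / p) = 0 := by
            apply ih
            · calc m / p ≤ m := Nat.div_le_self _ _
                _ < p * m := hmlt
            · exact Nat.div_pos (Nat.le_of_dvd hm hpm) hp.pos
          rw [hdiv, mul_zero, add_zero] at hrel
          exact hrel
        · rw [if_neg hpm, add_zero] at hrel
          exact hrel
    · have : n = 1 := by omega
      rw [this, h1]


theorem SeqEigen.smul (h : SeqEigen N a lam) (c : ℂ) : SeqEigen N (fun n => c * a n) lam where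
  relT p hp hpN n := by
    have := h.relT p hp hpN n
    split_ifs at this ⊢ with hd
    · linear_combination c * this
    · linear_combination c * this
  relU p hp hpN n := by
    have := h.relU p hp hpN n
    show c * a (n * p) = lam p * (c * a n)
    rw [this]; ring

end Seq

section Main

variable [NeZero N]

theorem seqEigen_of_eigen (g : CuspForm (Gamma0 N) 2) (lam : ℕ → ℂ)
    (hT : ∀ (l : ℕ) (hl : l.Prime) (hlN : ¬ l ∣ N), CuspForm.heckeTLin 2 hl hlN g = lam l • g)
    (hU : ∀ (q : ℕ) (_ : q.Prime) (hqN : q ∣ N), CuspForm.heckeULin 2 hqN g = lam q • g) :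
    SeqEigen N (fun n => qCoeff g n) lam where
  relT p hp hpN n := by
    have h1 := qCoeff_heckeTLin hp hpN g n
    rw [hT p hp hpN, qCoeff_smul, ModularForm.coeffHeckeT_apply] at h1
    have h2 : ((p : ℂ)) ^ ((2 : ℤ) - 1) = p := by norm_num
    rw [h2] at h1
    exact h1.symm
  relU p hp hpN n := by
    have h1 := qCoeff_heckeULin hp.ne_zero hpN g n
    rw [hU p hp hpN, qCoeff_smul, ModularForm.coeffHeckeU_apply] at h1
    exact h1.symm

omit [NeZero N] in
theorem eq_zero_of_forall_qCoeff_eq_zero {k : ℤ} (g : CuspForm (Gamma0 N) k)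
    (h : ∀ n : ℕ, qCoeff g n = 0) : g = 0 := by
  have hΓ := one_mem_strictPeriods_Gamma0 N
  have : Fact (IsCusp OnePoint.infty
      (Subgroup.map (Matrix.SpecialLinearGroup.mapGL ℝ) (Gamma0 N))) :=
    ⟨Subgroup.isCusp_of_mem_strictPeriods one_pos hΓ⟩
  have hq : qExpansion 1 g = 0 := by
    ext n
    simpa [qCoeff] using h n
  have := (UpperHalfPlane.qExpansion_eq_zero_iff (h := 1) one_pos
    (SlashInvariantFormClass.periodic_comp_ofComplex g hΓ) (CuspFormClass.holo g)
    (ModularFormClass.bdd_at_infty g)).mp hq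
  exact DFunLike.coe_injective this

theorem isNormalizedEigenform_of_eigen (g : CuspForm (Gamma0 N) 2) (hg : g ≠ 0)
    (lam : ℕ → ℂ)
    (hT : ∀ (l : ℕ) (hl : l.Prime) (hlN : ¬ l ∣ N), CuspForm.heckeTLin 2 hl hlN g = lam l • g)
    (hU : ∀ (q : ℕ) (_ : q.Prime) (hqN : q ∣ N), CuspForm.heckeULin 2 hqN g = lam q • g) :
    qCoeff g 1 ≠ 0 ∧ ((qCoeff g 1)⁻¹ • g).IsNormalizedEigenform ∧
      ∀ l : ℕ, l.Prime →
        qCoeff (((qCoeff g 1)⁻¹ • g : CuspForm (Gamma0 N) 2) : ℍ → ℂ) l = lam l := by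
  have hseq := seqEigen_of_eigen g lam hT hU
  have h1 : qCoeff g 1 ≠ 0 := by
    intro h0
    apply hg
    apply eq_zero_of_forall_qCoeff_eq_zero
    intro n
    rcases Nat.eq_zero_or_pos n with rfl | hn
    · exact qCoeff_zero_eq g
    · exact hseq.eq_zero_of_one h0 n hn
  set c : ℂ := (qCoeff g 1)⁻¹ with hc
  have hb : ∀ n, qCoeff ((c • g : CuspForm (Gamma0 N) 2) : ℍ → ℂ) n = c * qCoeff g n :=
    fun n => qCoeff_smul c g n
  have hseq' : SeqEigen N (fun n => c * qCoeff g n) lam := hseq.smul c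
  have hb1 : (fun n => c * qCoeff g n) 1 = 1 := by
    show c * qCoeff g 1 = 1
    rw [hc]; exact inv_mul_cancel₀ h1
  refine ⟨h1, ⟨?_, ?_, ?_, ?_⟩, ?_⟩
  · rw [hb]; exact hb1
  · intro m n hmn
    rw [hb, hb, hb]
    exact hseq'.mul_of_coprime hb1 m n hmn
  · intro p r hp hpN
    rw [hb, hb, hb, hb]
    exact hseq'.pow_not_dvd hb1 hp hpN r
  · intro p r hp hpN
    rw [hb, hb, hb]
    exact hseq'.pow_dvd hb1 hp hpN r
  · intro l hl
    rw [hb]
    exact (hseq'.lam_eq hb1 hl).symm

end Main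

end Fermat.Agent.S49.H90
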