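import Mathlib
import Fermat.Prelude.Def_CuspForm_IntegralLattice
import Fermat.Prelude.Def_CuspForm_HeckeAlgebra
import Fermat.Prelude.Def_CuspForm_IntegralStructure
import Fermat.Prelude.Thm_CuspForm_intLattice_fg
import Fermat.Prelude.Thm_CuspForm_mem_intLattice_of_mem_heckeAlgebra

set_option autoImplicit false

namespace Fermat.Agent.S49.H70

open CongruenceSubgroup ModularFormClass

section Transfer

variable {V : Type*} [AddCommGroup V] [Module ℂ V]

def restrictZ (L : Submodule ℤ V) (t : Module.End ℂ V) (ht : ∀ w ∈ L, t w ∈ L) :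
    Module.End ℤ L :=
  (t.restrictScalars ℤ).restrict ht

theorem restrictZ_apply (L : Submodule ℤ V) (t : Module.End ℂ V) (ht : ∀ w ∈ L, t w ∈ L)
    (w : L) : (restrictZ L t ht w : V) = t (w : V) := rfl

theorem restrictZ_pow_apply (L : Submodule ℤ V) (t : Module.End ℂ V)
    (ht : ∀ w ∈ L, t w ∈ L) (n : ℕ) (w : L) :
    (((restrictZ L t ht) ^ n) w : V) = (t ^ n) (w : V) := by
  induction n generalizing w with
  | zero => simp
  | succ n ih =>
    rw [pow_succ, pow_succ, Module.End.mul_apply, Module.End.mul_apply, ih, restrictZ_apply]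

theorem restrictZ_aeval_apply (L : Submodule ℤ V) (t : Module.End ℂ V)
    (ht : ∀ w ∈ L, t w ∈ L) (p : Polynomial ℤ) (w : L) :
    ((Polynomial.aeval (restrictZ L t ht) p) w : V) = (Polynomial.aeval t p) (w : V) := by
  induction p using Polynomial.induction_on' with
  | add p q hp hq =>
    rw [map_add, map_add, LinearMap.add_apply, LinearMap.add_apply, Submodule.coe_add, hp, hq]
  | monomial n a =>
    rw [Polynomial.aeval_monomial, Polynomial.aeval_monomial, Algebra.algebraMap_eq_smul_one,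
      Algebra.algebraMap_eq_smul_one, smul_mul_assoc, smul_mul_assoc, one_mul, one_mul,
      LinearMap.smul_apply, LinearMap.smul_apply, Submodule.coe_smul, restrictZ_pow_apply]

theorem isIntegral_of_lattice (L : Submodule ℤ V) (hfg : L.FG)
    (hspan : Submodule.span ℂ (L : Set V) = ⊤) (t : Module.End ℂ V)
    (ht : ∀ w ∈ L, t w ∈ L) : IsIntegral ℤ t := by
  have : Module.Finite ℤ L := Module.Finite.iff_fg.mpr hfg
  obtain ⟨p, hp, hp0⟩ := LinearMap.exists_monic_and_aeval_eq_zero ℤ (restrictZ L t ht)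
  refine ⟨p, hp, ?_⟩
  show Polynomial.aeval t p = 0
  apply LinearMap.ext_on hspan
  intro w hw
  have := restrictZ_aeval_apply L t ht p ⟨w, hw⟩
  rw [hp0] at this
  simpa using this.symm

theorem finiteDimensional_of_lattice (L : Submodule ℤ V) (hfg : L.FG)
    (hspan : Submodule.span ℂ (L : Set V) = ⊤) : FiniteDimensional ℂ V := by
  obtain ⟨s, hs⟩ := hfg
  refine ⟨⟨s, ?_⟩⟩
  rw [← hspan, ← hs, Submodule.span_span_of_tower]

end Transfer

section Cusp

variable {N : ℕ}

theorem mem_qIntegralSet_iff (f : CuspForm (Gamma0 N) 2) :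
    f ∈ CuspForm.qIntegralSet N ↔ ∀ n : ℕ, ∃ m : ℤ, qCoeff f n = (m : ℂ) := by
  unfold CuspForm.qIntegralSet
  simp only [Set.mem_setOf_eq, Subring.mem_bot]
  exact forall_congr' fun n => exists_congr fun m => eq_comm

theorem mem_intLattice_iff (f : CuspForm (Gamma0 N) 2) :
    f ∈ CuspForm.intLattice N 2 ↔ ∀ n : ℕ, ∃ m : ℤ, qCoeff f n = (m : ℂ) :=
  P2MW.S_CuspForm_intLattice_fg.W3WsD.mem_intLattice_iff f

theorem qIntegralSet_eq_intLattice :
    CuspForm.qIntegralSet N = (CuspForm.intLattice N 2 : Set (CuspForm (Gamma0 N) 2)) := by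
  ext f
  rw [mem_qIntegralSet_iff, SetLike.mem_coe, mem_intLattice_iff]

theorem span_intLattice_eq_top (h : CuspForm.HasIntegralBasis N) :
    Submodule.span ℂ (CuspForm.intLattice N 2 : Set (CuspForm (Gamma0 N) 2)) = ⊤ := by
  rw [← qIntegralSet_eq_intLattice]; exact h

theorem finiteDimensional_cuspForm [NeZero N] (h : CuspForm.HasIntegralBasis N) :
    FiniteDimensional ℂ (CuspForm (Gamma0 N) 2) :=
  finiteDimensional_of_lattice _ (CuspForm.intLattice_fg N 2) (span_intLattice_eq_top h)

theorem isIntegral_of_mem_heckeAlgebra [NeZero N] (h : CuspForm.HasIntegralBasis N) {S : Set ℕ}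
    {t : Module.End ℂ (CuspForm (Gamma0 N) 2)} (ht : t ∈ CuspForm.heckeAlgebra N 2 S) :
    IsIntegral ℤ t :=
  isIntegral_of_lattice _ (CuspForm.intLattice_fg N 2) (span_intLattice_eq_top h) t
    fun _ hw => CuspForm.mem_intLattice_of_mem_heckeAlgebra (by norm_num) ht hw

end Cusp

end Fermat.Agent.S49.H70
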