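import Mathlib
import Fermat.Prelude.Def_CuspForm_IntegralLattice
import Fermat.Prelude.Def_CuspForm_HeckeAlgebra
import Fermat.Prelude.Def_CuspForm_IntegralStructure
import Fermat.Prelude.Def_FormalHecke_Eigensystem
import Fermat.Prelude.Thm_CuspForm_intLattice_fg
import Fermat.Prelude.Thm_CuspForm_mem_intLattice_of_mem_heckeAlgebra
import Fermat.Prelude.Thm_ModularFormClass_qCoeff_heckeT
import Fermat.Prelude.Thm_ModularFormClass_qCoeff_heckeU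
import Fermat.Agent.S49.H70_Lattice

set_option autoImplicit false

namespace Fermat.Agent.S49.H70

open CongruenceSubgroup ModularFormClass EisensteinWeightOne

section QCoeff

variable {N : ℕ} {k : ℤ}

theorem one_mem_strictPeriods (N : ℕ) :
    (1 : ℝ) ∈ (Subgroup.map (Matrix.SpecialLinearGroup.mapGL ℝ) (Gamma0 N)).strictPeriods :=
  CongruenceSubgroup.one_mem_strictPeriods_Gamma0 N

theorem qCoeff_add (f g : CuspForm (Gamma0 N) k) (n : ℕ) :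
    qCoeff ⇑(f + g) n = qCoeff ⇑f n + qCoeff ⇑g n :=
  P2MW.S_CuspForm_intLattice_fg.W3WsD.qCoeff_add f g n

theorem qCoeff_zsmul (c : ℤ) (f : CuspForm (Gamma0 N) k) (n : ℕ) :
    qCoeff ⇑(c • f) n = c * qCoeff ⇑f n :=
  P2MW.S_CuspForm_intLattice_fg.W3WsD.qCoeff_zsmul c f n

theorem qCoeff_smul (c : ℂ) (f : CuspForm (Gamma0 N) k) (n : ℕ) :
    qCoeff ⇑(c • f) n = c * qCoeff ⇑f n := by
  have h1 : ⇑(c • f) = c • ⇑f := by
    ext z
    simp
  simp only [qCoeff, h1]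
  rw [ModularForm.qExpansion_smul one_pos (one_mem_strictPeriods N) c f]
  simp

theorem qCoeff_heckeTLin {p : ℕ} (hp : p.Prime) (hpN : ¬ p ∣ N) (f : CuspForm (Gamma0 N) k)
    (n : ℕ) :
    qCoeff (CuspForm.heckeTLin k hp hpN f) n = ModularForm.coeffHeckeT k p (qCoeff f) n := by
  rw [CuspForm.coe_heckeTLin_apply]
  exact ModularFormClass.qCoeff_heckeT f (one_mem_strictPeriods N) hp.ne_zero n

theorem qCoeff_heckeULin [NeZero N] {p : ℕ} (hp : p.Prime) (hpN : p ∣ N)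
    (f : CuspForm (Gamma0 N) k) (n : ℕ) :
    qCoeff (CuspForm.heckeULin k hpN f) n = ModularForm.coeffHeckeU p (qCoeff f) n := by
  rw [CuspForm.coe_heckeULin_apply]
  exact ModularFormClass.qCoeff_heckeU f (one_mem_strictPeriods N) hp.ne_zero n

end QCoeff

section ModThree

variable {N : ℕ} [NeZero N]

omit [NeZero N] in
theorem exists_mem_intLattice_eq_three_smul (g : CuspForm (Gamma0 N) 2)
    (hg : ∀ n, ∃ m : ℤ, qCoeff g n = ((3 * m : ℤ) : ℂ)) :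
    ∃ g' ∈ CuspForm.intLattice N 2, g = (3 : ℤ) • g' := by
  refine ⟨(3⁻¹ : ℂ) • g, ?_, ?_⟩
  · rw [mem_intLattice_iff]
    intro n
    obtain ⟨m, hm⟩ := hg n
    refine ⟨m, ?_⟩
    rw [qCoeff_smul, hm]
    push_cast
    field_simp
  · ext z
    simp

theorem key (f₀ : CuspForm (Gamma0 N) 2) (b : ℕ → ℤ)
    (hT : ∀ (ℓ : ℕ) (hℓ : ℓ.Prime) (hℓN : ¬ ℓ ∣ N), ∃ g ∈ CuspForm.intLattice N 2,
      CuspForm.heckeTLin 2 hℓ hℓN f₀ = b ℓ • f₀ + (3 : ℤ) • g)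
    (hU : ∀ (q : ℕ) (_ : q.Prime) (hqN : q ∣ N), ∃ g ∈ CuspForm.intLattice N 2,
      CuspForm.heckeULin 2 hqN f₀ = b q • f₀ + (3 : ℤ) • g)
    {t : Module.End ℂ (CuspForm (Gamma0 N) 2)} (ht : t ∈ CuspForm.heckeAlgebra N 2 ∅) :
    ∃ c : ℤ, ∃ g ∈ CuspForm.intLattice N 2, t f₀ = c • f₀ + (3 : ℤ) • g := by
  refine Algebra.adjoin_induction
    (p := fun t _ => ∃ c : ℤ, ∃ g ∈ CuspForm.intLattice N 2, t f₀ = c • f₀ + (3 : ℤ) • g)
    ?_ ?_ ?_ ?_ ht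
  · rintro x (⟨ℓ, hℓ, hℓN, -, rfl⟩ | ⟨q, hqN, hq, -, rfl⟩)
    · obtain ⟨g, hg, h⟩ := hT ℓ hℓ hℓN
      exact ⟨b ℓ, g, hg, h⟩
    · obtain ⟨g, hg, h⟩ := hU q hq hqN
      exact ⟨b q, g, hg, h⟩
  · intro r
    refine ⟨r, 0, zero_mem _, ?_⟩
    rw [Algebra.algebraMap_eq_smul_one, LinearMap.smul_apply, Module.End.one_apply, smul_zero,
      add_zero]
  · rintro x y _ _ ⟨c, g, hg, h⟩ ⟨c', g', hg', h'⟩
    refine ⟨c + c', g + g', add_mem hg hg', ?_⟩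
    rw [LinearMap.add_apply, h, h', add_smul, smul_add]
    abel
  · rintro x y hx _ ⟨c, g, hg, h⟩ ⟨c', g', hg', h'⟩
    refine ⟨c * c', c' • g + x g', add_mem (Submodule.smul_mem _ _ hg)
      (CuspForm.mem_intLattice_of_mem_heckeAlgebra (by norm_num) hx hg'), ?_⟩
    rw [Module.End.mul_apply, h', map_add, map_zsmul, map_zsmul, h, smul_add, smul_add, smul_smul,
      smul_smul, smul_smul, mul_comm c' c, mul_comm c' 3]
    abel

omit [NeZero N] in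
theorem unique_mod_three (f₀ : CuspForm (Gamma0 N) 2) (af1 : ℤ) (haf1 : qCoeff f₀ 1 = af1)
    (h1 : (af1 : ZMod 3) = 1) {c c' : ℤ} {g g' : CuspForm (Gamma0 N) 2}
    (hg : g ∈ CuspForm.intLattice N 2) (hg' : g' ∈ CuspForm.intLattice N 2)
    (h : c • f₀ + (3 : ℤ) • g = c' • f₀ + (3 : ℤ) • g') : (c : ZMod 3) = c' := by
  obtain ⟨m, hm⟩ := (mem_intLattice_iff g).mp hg 1
  obtain ⟨m', hm'⟩ := (mem_intLattice_iff g').mp hg' 1
  have h2 := congrArg (fun F : CuspForm (Gamma0 N) 2 => qCoeff F 1) h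
  simp only [qCoeff_add, qCoeff_zsmul, haf1, hm, hm'] at h2
  have h3 : c * af1 + 3 * m = c' * af1 + 3 * m' := by exact_mod_cast h2
  have h4 := congrArg (fun z : ℤ => (z : ZMod 3)) h3
  simp only [Int.cast_add, Int.cast_mul, h1, mul_one] at h4
  have h5 : ((3 : ℤ) : ZMod 3) = 0 := by decide
  rw [h5, zero_mul, zero_mul, add_zero, add_zero] at h4
  exact h4

theorem exists_ringHom (f₀ : CuspForm (Gamma0 N) 2) (af1 : ℤ) (haf1 : qCoeff f₀ 1 = af1)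
    (h1 : (af1 : ZMod 3) = 1) (b : ℕ → ℤ)
    (hT : ∀ (ℓ : ℕ) (hℓ : ℓ.Prime) (hℓN : ¬ ℓ ∣ N), ∃ g ∈ CuspForm.intLattice N 2,
      CuspForm.heckeTLin 2 hℓ hℓN f₀ = b ℓ • f₀ + (3 : ℤ) • g)
    (hU : ∀ (q : ℕ) (_ : q.Prime) (hqN : q ∣ N), ∃ g ∈ CuspForm.intLattice N 2,
      CuspForm.heckeULin 2 hqN f₀ = b q • f₀ + (3 : ℤ) • g) :
    ∃ χ : CuspForm.heckeAlgebra N 2 ∅ →+* ZMod 3,
      (∀ (ℓ : ℕ) (hℓ : ℓ.Prime) (hℓN : ¬ ℓ ∣ N),
        χ (CuspForm.heckeAlgebra.T hℓ hℓN (Set.notMem_empty ℓ)) = (b ℓ : ZMod 3)) ∧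
      (∀ (q : ℕ) (hq : q.Prime) (hqN : q ∣ N),
        χ (CuspForm.heckeAlgebra.U hq hqN (Set.notMem_empty q)) = (b q : ZMod 3)) := by
  have hkey : ∀ t : CuspForm.heckeAlgebra N 2 ∅, ∃ c : ℤ, ∃ g ∈ CuspForm.intLattice N 2,
      (t : Module.End ℂ (CuspForm (Gamma0 N) 2)) f₀ = c • f₀ + (3 : ℤ) • g :=
    fun t => key f₀ b hT hU t.2
  choose c g hg hc using hkey
  have huniq : ∀ (t : CuspForm.heckeAlgebra N 2 ∅) (c' : ℤ) (g' : CuspForm (Gamma0 N) 2),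
      g' ∈ CuspForm.intLattice N 2 →
      (t : Module.End ℂ (CuspForm (Gamma0 N) 2)) f₀ = c' • f₀ + (3 : ℤ) • g' →
      (c t : ZMod 3) = c' := by
    intro t c' g' hg' h
    exact unique_mod_three f₀ af1 haf1 h1 (hg t) hg' ((hc t).symm.trans h)
  refine ⟨⟨⟨⟨fun t => (c t : ZMod 3), ?_⟩, ?_⟩, ?_, ?_⟩, ?_, ?_⟩
  · rw [huniq 1 1 0 (zero_mem _) (by simp)]
    simp
  · intro s t
    simp only
    rw [huniq (s * t) (c s * c t) (c t • g s + (s : Module.End ℂ (CuspForm (Gamma0 N) 2)) (g t))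
      (add_mem (Submodule.smul_mem _ _ (hg s))
        (CuspForm.mem_intLattice_of_mem_heckeAlgebra (by norm_num) s.2 (hg t))) ?_]
    · push_cast; ring
    · rw [MulMemClass.coe_mul, Module.End.mul_apply, hc t, map_add, map_zsmul, map_zsmul, hc s,
        smul_add, smul_add, smul_smul, smul_smul, smul_smul, mul_comm (c t) (c s),
        mul_comm (c t) 3]
      abel
  · simp only
    rw [huniq 0 0 0 (zero_mem _) (by simp)]
    simp
  · intro s t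
    simp only
    rw [huniq (s + t) (c s + c t) (g s + g t) (add_mem (hg s) (hg t)) ?_]
    · push_cast; ring
    · rw [AddMemClass.coe_add, LinearMap.add_apply, hc s, hc t, add_smul, smul_add]
      abel
  · intro ℓ hℓ hℓN
    obtain ⟨g', hg', h⟩ := hT ℓ hℓ hℓN
    exact huniq (CuspForm.heckeAlgebra.T hℓ hℓN (Set.notMem_empty ℓ)) (b ℓ) g' hg'
      (by rw [CuspForm.heckeAlgebra.coe_T]; exact h)
  · intro q hq hqN
    obtain ⟨g', hg', h⟩ := hU q hq hqN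
    exact huniq (CuspForm.heckeAlgebra.U hq hqN (Set.notMem_empty q)) (b q) g' hg'
      (by rw [CuspForm.heckeAlgebra.coe_U]; exact h)

end ModThree

end Fermat.Agent.S49.H70
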