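import Mathlib

set_option autoImplicit false

namespace Fermat.Agent.S49.H70

open Module

section Eigen

variable {K : Type*} [Field K] [IsAlgClosed K] {V : Type*} [AddCommGroup V] [Module K V]
  [FiniteDimensional K V] {R : Type*} [CommRing R]

theorem exists_eigenvector_aux (ρ : R →+* Module.End K V) (𝔫 : Ideal R) [h𝔫 : 𝔫.IsPrime] :
    ∀ (n : ℕ) (W : Submodule K V), finrank K W = n → W ≠ ⊥ → (∀ r, ∀ w ∈ W, ρ r w ∈ W) →
      (∀ r, (∀ w ∈ W, ρ r w = 0) → r ∈ 𝔫) →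
      ∃ v ∈ W, v ≠ 0 ∧ ∃ μ : R → K, (∀ r, ρ r v = μ r • v) ∧ ∀ r, μ r = 0 → r ∈ 𝔫 := by
  intro n
  induction n using Nat.strong_induction_on with
  | _ n ih =>
  intro W hn hW hstab hann
  by_cases hsc : ∀ r, ∃ c : K, ∀ w ∈ W, ρ r w = c • w
  · choose μ hμ using hsc
    obtain ⟨v, hvW, hv0⟩ := Submodule.exists_mem_ne_zero_of_ne_bot hW
    refine ⟨v, hvW, hv0, μ, fun r => hμ r v hvW, fun r hr => hann r fun w hw => ?_⟩
    rw [hμ r w hw, hr, zero_smul]
  · push Not at hsc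
    obtain ⟨r₀, hr₀⟩ := hsc
    have : Nontrivial W := (Submodule.nontrivial_iff_ne_bot).mpr hW
    obtain ⟨μ₀, hμ₀⟩ := Module.End.exists_eigenvalue ((ρ r₀).restrict (hstab r₀))
    obtain ⟨⟨w₀, hw₀W⟩, hw₀⟩ := hμ₀.exists_hasEigenvector
    have hw₀ne : w₀ ≠ 0 := fun h => hw₀.2 (Subtype.ext h)
    have hw₀eq : ρ r₀ w₀ = μ₀ • w₀ := by
      have := hw₀.apply_eq_smul
      exact congrArg Subtype.val this
    set g : Module.End K V := ρ r₀ - algebraMap K (Module.End K V) μ₀ with hg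
    have hgapp : ∀ x, g x = ρ r₀ x - μ₀ • x := fun x => by
      simp [hg, Module.algebraMap_end_apply]
    have hcomm : ∀ r x, g (ρ r x) = ρ r (g x) := by
      intro r x
      rw [hgapp, hgapp, map_sub, map_smul]
      congr 1
      rw [← Module.End.mul_apply, ← Module.End.mul_apply, ← map_mul, ← map_mul, mul_comm]
    have hgW : ∀ w ∈ W, g w ∈ W := fun w hw => by
      rw [hgapp]; exact W.sub_mem (hstab r₀ w hw) (W.smul_mem _ hw)
    obtain ⟨w₁, hw₁W, hw₁⟩ := hr₀ μ₀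
    have hgw₁ : g w₁ ≠ 0 := by rw [hgapp]; exact sub_ne_zero.mpr hw₁
    have hgw₀ : g w₀ = 0 := by rw [hgapp, hw₀eq, sub_self]
    set W₁ : Submodule K V := W ⊓ LinearMap.ker g with hW₁
    set W₂ : Submodule K V := W.map g with hW₂
    have hW₁le : W₁ ≤ W := inf_le_left
    have hW₂le : W₂ ≤ W := by
      rintro _ ⟨u, hu, rfl⟩; exact hgW u hu
    have hW₁ne : W₁ ≠ ⊥ := by
      intro h
      have : w₀ ∈ W₁ := ⟨hw₀W, hgw₀⟩
      rw [h] at this
      exact hw₀ne ((Submodule.mem_bot K).mp this)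
    have hW₂ne : W₂ ≠ ⊥ := by
      intro h
      have : g w₁ ∈ W₂ := Submodule.mem_map_of_mem hw₁W
      rw [h] at this
      exact hgw₁ ((Submodule.mem_bot K).mp this)
    have hW₁lt : W₁ < W := by
      refine lt_of_le_of_ne hW₁le fun h => ?_
      have : w₁ ∈ W₁ := h ▸ hw₁W
      exact hgw₁ this.2
    have hW₂lt : W₂ < W := by
      refine lt_of_le_of_ne hW₂le fun h => ?_
      -- g restricted to W is surjective hence injective
      have hsurj : Function.Surjective (g.restrict hgW) := by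
        rintro ⟨y, hy⟩
        rw [← h] at hy
        obtain ⟨u, hu, rfl⟩ := hy
        exact ⟨⟨u, hu⟩, rfl⟩
      have hinj : Function.Injective (g.restrict hgW) :=
        LinearMap.injective_iff_surjective.mpr hsurj
      have h0 : g.restrict hgW ⟨w₀, hw₀W⟩ = g.restrict hgW 0 := by
        apply Subtype.ext
        simp [LinearMap.restrict_apply, hgw₀]
      exact hw₀ne (congrArg Subtype.val (hinj h0))
    have hstab₁ : ∀ r, ∀ w ∈ W₁, ρ r w ∈ W₁ := by
      intro r w hw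
      refine ⟨hstab r w hw.1, ?_⟩
      show g (ρ r w) = 0
      rw [hcomm, LinearMap.mem_ker.mp hw.2, map_zero]
    have hstab₂ : ∀ r, ∀ w ∈ W₂, ρ r w ∈ W₂ := by
      rintro r _ ⟨u, hu, rfl⟩
      rw [← hcomm]
      exact Submodule.mem_map_of_mem (hstab r u hu)
    have hfin₁ : finrank K W₁ < n := hn ▸ Submodule.finrank_lt_finrank_of_lt hW₁lt
    have hfin₂ : finrank K W₂ < n := hn ▸ Submodule.finrank_lt_finrank_of_lt hW₂lt
    by_cases h₁ : ∀ r, (∀ w ∈ W₁, ρ r w = 0) → r ∈ 𝔫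
    · obtain ⟨v, hv, hv0, μ, hμ, hμn⟩ := ih _ hfin₁ W₁ rfl hW₁ne hstab₁ h₁
      exact ⟨v, hW₁le hv, hv0, μ, hμ, hμn⟩
    · by_cases h₂ : ∀ r, (∀ w ∈ W₂, ρ r w = 0) → r ∈ 𝔫
      · obtain ⟨v, hv, hv0, μ, hμ, hμn⟩ := ih _ hfin₂ W₂ rfl hW₂ne hstab₂ h₂
        exact ⟨v, hW₂le hv, hv0, μ, hμ, hμn⟩
      · exfalso
        push Not at h₁ h₂
        obtain ⟨r₁, hr₁, hr₁n⟩ := h₁
        obtain ⟨r₂, hr₂, hr₂n⟩ := h₂
        have hmem : r₁ * r₂ ∈ 𝔫 := by
          apply hann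
          intro w hw
          rw [map_mul, Module.End.mul_apply]
          apply hr₁
          refine ⟨hstab r₂ w hw, ?_⟩
          show g (ρ r₂ w) = 0
          rw [hcomm]
          exact hr₂ _ (Submodule.mem_map_of_mem hw)
        rcases h𝔫.mem_or_mem hmem with h | h
        · exact hr₁n h
        · exact hr₂n h

theorem exists_eigenvector (ρ : R →+* Module.End K V) (𝔫 : Ideal R) [h𝔫 : 𝔫.IsPrime]
    (hker : RingHom.ker ρ ≤ 𝔫) :
    ∃ (v : V) (lam : R →+* K), v ≠ 0 ∧ (∀ r, ρ r v = lam r • v) ∧ RingHom.ker lam ≤ 𝔫 := by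
  have htop : (⊤ : Submodule K V) ≠ ⊥ := by
    intro h
    apply h𝔫.ne_top
    rw [Ideal.eq_top_iff_one]
    apply hker
    rw [RingHom.mem_ker]
    ext x
    have : x ∈ (⊤ : Submodule K V) := Submodule.mem_top
    rw [h] at this
    simp [(Submodule.mem_bot K).mp this]
  obtain ⟨v, -, hv0, μ, hμ, hμn⟩ := exists_eigenvector_aux ρ 𝔫 _ ⊤ rfl htop
    (fun _ _ _ => Submodule.mem_top) (fun r hr => hker (by
      rw [RingHom.mem_ker]
      ext x
      simpa using hr x Submodule.mem_top))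
  have hinj : Function.Injective fun c : K => c • v := smul_left_injective K hv0
  refine ⟨v, ⟨⟨⟨μ, ?_⟩, ?_⟩, ?_, ?_⟩, hv0, hμ, fun r hr => hμn r hr⟩
  · apply hinj
    simp only
    rw [← hμ, map_one, Module.End.one_apply, one_smul]
  · intro r s
    apply hinj
    simp only
    rw [← hμ, map_mul, Module.End.mul_apply, hμ s, map_smul, hμ r, smul_smul, mul_comm]
  · apply hinj
    simp only
    rw [← hμ, map_zero, LinearMap.zero_apply, zero_smul]
  · intro r s
    apply hinj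
    simp only
    rw [← hμ, map_add, LinearMap.add_apply, hμ r, hμ s, add_smul]

end Eigen

section Lift

variable {V : Type*} [AddCommGroup V] [Module ℂ V] [FiniteDimensional ℂ V]
  {R : Type*} [CommRing R]

theorem isIntegral_of_eigen (f : Module.End ℂ V) (hf : IsIntegral ℤ f) {v : V} (hv : v ≠ 0)
    {c : ℂ} (hc : f v = c • v) : IsIntegral ℤ c := by
  obtain ⟨p, hp, hp0⟩ := hf
  refine ⟨p, hp, ?_⟩
  have hev : f.HasEigenvector c v := ⟨Module.End.mem_eigenspace_iff.mpr hc, hv⟩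
  have h1 := Module.End.aeval_apply_of_hasEigenvector (p := p.map (algebraMap ℤ ℂ)) hev
  rw [Polynomial.aeval_map_algebraMap] at h1
  have h2 : Polynomial.aeval f p = 0 := hp0
  rw [h2, LinearMap.zero_apply] at h1
  have h3 : Polynomial.eval c (p.map (algebraMap ℤ ℂ)) = 0 := by
    by_contra hne
    exact hv ((smul_eq_zero.mp h1.symm).resolve_left hne)
  rwa [Polynomial.eval_map] at h3

theorem exists_lift (ρ : R →+* Module.End ℂ V) (hint : ∀ r, IsIntegral ℤ (ρ r))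
    {k : Type*} [Field k] (χ : R →+* k) (hχ : Function.Surjective χ)
    (hker : RingHom.ker ρ ≤ RingHom.ker χ) :
    ∃ (v : V) (lam : R →+* integralClosure ℤ ℂ) (𝔪 : Ideal (integralClosure ℤ ℂ)),
      v ≠ 0 ∧ (∀ r, ρ r v = (lam r : ℂ) • v) ∧ 𝔪.IsMaximal ∧ 𝔪.comap lam = RingHom.ker χ := by
  have hmax : (RingHom.ker χ).IsMaximal := RingHom.ker_isMaximal_of_surjective χ hχ
  obtain ⟨v, lam₀, hv0, hlam₀, hk⟩ := exists_eigenvector ρ (RingHom.ker χ) hker
  have hmem : ∀ r, lam₀ r ∈ integralClosure ℤ ℂ := fun r =>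
    isIntegral_of_eigen (ρ r) (hint r) hv0 (hlam₀ r)
  let lam : R →+* integralClosure ℤ ℂ := lam₀.codRestrict (integralClosure ℤ ℂ) hmem
  have hlamcoe : ∀ r, ((lam r : integralClosure ℤ ℂ) : ℂ) = lam₀ r := fun r => rfl
  letI : Algebra R (integralClosure ℤ ℂ) := lam.toAlgebra
  have hIntZ : ∀ x : integralClosure ℤ ℂ, IsIntegral ℤ x := fun x =>
    (isIntegral_algebraMap_iff (A := integralClosure ℤ ℂ) (B := ℂ) Subtype.val_injective).mp x.2
  haveI : Algebra.IsIntegral R (integralClosure ℤ ℂ) := ⟨fun x => (hIntZ x).tower_top⟩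
  have hker' : RingHom.ker (algebraMap R (integralClosure ℤ ℂ)) ≤ RingHom.ker χ := by
    intro r hr
    apply hk
    rw [RingHom.mem_ker] at hr ⊢
    have : lam r = 0 := hr
    rw [← hlamcoe, this]; rfl
  obtain ⟨Q, hQmax, hQ⟩ := Ideal.exists_ideal_over_maximal_of_isIntegral
    (S := integralClosure ℤ ℂ) (RingHom.ker χ) hker'
  exact ⟨v, lam, Q, hv0, fun r => by rw [hlamcoe]; exact hlam₀ r, hQmax, hQ⟩

end Lift

end Fermat.Agent.S49.H70
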