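import Mathlib
import Fermat.Agent.S49.H70_ModThree

set_option autoImplicit false

namespace Fermat.Agent.S49.H70

open CongruenceSubgroup ModularFormClass EisensteinWeightOne

theorem e1Chi3In_int :
    e1Chi3In ℤ = 1 + PowerSeries.C (3 : ℤ) *
      PowerSeries.mk (fun n => if n = 0 then 0 else 2 * sigmaChi n) := by
  ext n
  simp only [e1Chi3In, e1Chi3, PowerSeries.coeff_map, PowerSeries.coeff_mk, map_add,
    PowerSeries.coeff_one, PowerSeries.coeff_C_mul, Int.coe_castRingHom, Int.cast_id]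
  split_ifs <;> ring

theorem bridge_coeff (a : ℕ → ℤ) (n : ℕ) :
    (3 : ℤ) ∣ PowerSeries.coeff n (bridgeProduct a) - a n := by
  unfold bridgeProduct
  rw [e1Chi3In_int, mul_add, mul_one, map_add, PowerSeries.coeff_mk, add_sub_cancel_left,
    mul_left_comm, PowerSeries.coeff_C_mul]
  exact dvd_mul_right _ _

theorem chiNegThree_cast (ℓ : ℕ) : ((chiNegThree ℓ : ℤ) : ZMod 3) = (ℓ : ZMod 3) := by
  have h : (ℓ : ZMod 3) = ((ℓ % 3 : ℕ) : ZMod 3) := (ZMod.natCast_mod ℓ 3).symm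
  rw [h]
  unfold chiNegThree
  have h3 : ℓ % 3 < 3 := Nat.mod_lt _ (by norm_num)
  interval_cases (ℓ % 3) <;> simp <;> decide

variable {N : ℕ} [NeZero N]

theorem exists_chibar {a : ℕ → ℤ}
    (heig : FormalHecke.IsEigensystem
      (fun ℓ => if ℓ ∣ N then 0 else ((chiNegThree ℓ : ℤ) : ℤ)) a)
    (hreal : CuspForm.IsLatticeRealized N a) :
    ∃ χ : CuspForm.heckeAlgebra N 2 ∅ →+* ZMod 3,
      ∀ (ℓ : ℕ) (hℓ : ℓ.Prime) (hℓN : ¬ ℓ ∣ N),
        χ (CuspForm.heckeAlgebra.T hℓ hℓN (Set.notMem_empty ℓ)) = (a ℓ : ZMod 3) := by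
  obtain ⟨f₀, -, af, haf, h3⟩ := hreal
  have hafa : ∀ n, (af n : ZMod 3) = (a n : ZMod 3) := by
    intro n
    have h : (3 : ℤ) ∣ af n - a n := by
      have := dvd_add (h3 n) (bridge_coeff a n)
      simpa using this
    have h' := (ZMod.intCast_zmod_eq_zero_iff_dvd (af n - a n) 3).mpr (by exact_mod_cast h)
    rw [Int.cast_sub, sub_eq_zero] at h'
    exact h'
  have h1 : (af 1 : ZMod 3) = 1 := by rw [hafa, heig.1]; simp
  have hT : ∀ (ℓ : ℕ) (hℓ : ℓ.Prime) (hℓN : ¬ ℓ ∣ N), ∃ g ∈ CuspForm.intLattice N 2,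
      CuspForm.heckeTLin 2 hℓ hℓN f₀ = a ℓ • f₀ + (3 : ℤ) • g := by
    intro ℓ hℓ hℓN
    obtain ⟨g, hg, h⟩ := exists_mem_intLattice_eq_three_smul
      (CuspForm.heckeTLin 2 hℓ hℓN f₀ + (-a ℓ) • f₀) (by
        intro n
        have hE : ((af (n * ℓ) + (if ℓ ∣ n then (ℓ : ℤ) * af (n / ℓ) else 0) - a ℓ * af n : ℤ) :
            ZMod 3) = 0 := by
          have he := congrArg (fun z : ℤ => (z : ZMod 3)) (heig.2 ℓ hℓ n)
          simp only [if_neg hℓN, Int.cast_add, Int.cast_mul, chiNegThree_cast] at he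
          rw [mul_comm ℓ n] at he
          by_cases hd : ℓ ∣ n
          · simp only [if_pos hd] at he ⊢
            push_cast
            rw [hafa, hafa, hafa, ← he]
            ring
          · simp only [if_neg hd] at he ⊢
            push_cast
            rw [hafa, hafa, ← he]
            simp
        obtain ⟨m, hm⟩ := (ZMod.intCast_zmod_eq_zero_iff_dvd _ 3).mp hE
        refine ⟨m, ?_⟩
        have hm' : (3 : ℤ) * m = af (n * ℓ) + (if ℓ ∣ n then (ℓ : ℤ) * af (n / ℓ) else 0) -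
            a ℓ * af n := by rw [hm]; norm_num
        rw [hm', qCoeff_add, qCoeff_zsmul, qCoeff_heckeTLin, ModularForm.coeffHeckeT_apply,
          ← haf, ← haf, ← haf]
        by_cases hd : ℓ ∣ n
        · simp only [if_pos hd]; push_cast; norm_num; ring
        · simp only [if_neg hd]; push_cast; ring)
    refine ⟨g, hg, ?_⟩
    rw [← h]
    simp
  have hU : ∀ (q : ℕ) (_ : q.Prime) (hqN : q ∣ N), ∃ g ∈ CuspForm.intLattice N 2,
      CuspForm.heckeULin 2 hqN f₀ = a q • f₀ + (3 : ℤ) • g := by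
    intro q hq hqN
    obtain ⟨g, hg, h⟩ := exists_mem_intLattice_eq_three_smul
      (CuspForm.heckeULin 2 hqN f₀ + (-a q) • f₀) (by
        intro n
        have hE : ((af (n * q) - a q * af n : ℤ) : ZMod 3) = 0 := by
          have he := congrArg (fun z : ℤ => (z : ZMod 3)) (heig.2 q hq n)
          simp only [if_pos hqN, Int.cast_add, Int.cast_mul, Int.cast_zero, zero_mul,
            add_zero] at he
          rw [mul_comm q n] at he
          push_cast
          rw [hafa, hafa, he]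
          ring
        obtain ⟨m, hm⟩ := (ZMod.intCast_zmod_eq_zero_iff_dvd _ 3).mp hE
        refine ⟨m, ?_⟩
        have hm' : (3 : ℤ) * m = af (n * q) - a q * af n := by rw [hm]; norm_num
        rw [hm', qCoeff_add, qCoeff_zsmul, qCoeff_heckeULin hq, ModularForm.coeffHeckeU_apply,
          ← haf, ← haf]
        push_cast; ring)
    refine ⟨g, hg, ?_⟩
    rw [← h]
    simp
  obtain ⟨χ, hχT, -⟩ := exists_ringHom f₀ (af 1) (haf 1).symm h1 a hT hU
  exact ⟨χ, hχT⟩

end Fermat.Agent.S49.H70
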